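-- Statement S20: dim S_2(Γ₀(N)) = genus formula.
import Fermat.Statements.S20
import Fermat.Agent.S20.Genus
import Fermat.Agent.S20.Serre
import Fermat.Agent.S20.Separating
import Fermat.Agent.S20.Cosets

set_option autoImplicit false
open CuspForm

namespace Fermat.Agent.S20

open Fermat.Agent.S20Lib CongruenceSubgroup in
theorem result (N : ℕ) [NeZero N] :
    (Module.finrank ℂ (CuspForm (CongruenceSubgroup.Gamma0 N) 2) : ℚ) = ModularCurve.genusFormula N := by
  classical
  obtain ⟨ι, _, wt, F, hB, hle⟩ := exists_freeBasis_Gamma0 N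
  obtain ⟨f, hf, hsep⟩ := exists_separating_form N
  obtain ⟨hcard, hex⟩ := card_eq_index_of_separating hB hle hf hsep
  have : Fintype (Matrix.SpecialLinearGroup (Fin 2) ℤ ⧸ Gamma0 N) := Fintype.ofFinite _
  have hc : Fintype.card ι = Fintype.card (Matrix.SpecialLinearGroup (Fin 2) ℤ ⧸ Gamma0 N) := by
    rw [hcard, ← Nat.card_eq_fintype_card]; rfl
  let e : ι ≃ Matrix.SpecialLinearGroup (Fin 2) ℤ ⧸ Gamma0 N := Fintype.equivOfCardEq hc
  have hdet := PhiSq_det_ne_zero hB e (hex e)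
  have hN : Gamma N ≤ Gamma0 N := by
    intro γ hγ
    rw [Gamma_mem] at hγ
    rw [Gamma0_mem]
    exact hγ.2.2.1
  have h := genus_abstract hN (neg_one_mem_Gamma0 N) hB e hdet
  rw [index_Gamma0, card_fixed_S, card_fixed_ST, card_orbits_T,
    ← (cuspFormEquiv (Gamma0 N) 2).finrank_eq] at h
  rw [ModularCurve.genusFormula]
  have h' : (((Module.finrank ℂ (CuspForm (CongruenceSubgroup.Gamma0 N) 2) : ℚ)) : ℝ) =
      ((1 + (ModularCurve.dedekindPsi N : ℚ) / 12 - (ModularCurve.nuTwo N : ℚ) / 4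
        - (ModularCurve.nuThree N : ℚ) / 3 - (ModularCurve.cuspCount N : ℚ) / 2 : ℚ) : ℝ) := by
    push_cast
    exact h
  exact_mod_cast h'

end Fermat.Agent.S20
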