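import Fermat.Statements.S02

set_option autoImplicit false
open FreyPackage

namespace Fermat.Agent.S02

/-- Step 3: coprime, `b` even. Fix the class of `a` modulo 4 by negating if necessary. -/
theorem step3 (a b c : ℤ) (ha : a ≠ 0) (hb : b ≠ 0) (hc : c ≠ 0) (p : ℕ) (pp : p.Prime)
    (hp5 : 5 ≤ p) (H : a ^ p + b ^ p = c ^ p) (hg : gcd a b = 1) (hb2 : (2 : ℤ) ∣ b) :
    Nonempty FreyPackage := by
  have hpodd : Odd p := pp.odd_of_ne_two (by omega)
  have hb2' : (b : ZMod 2) = 0 := (ZMod.intCast_zmod_eq_zero_iff_dvd b 2).2 hb2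
  -- `a` is odd
  have ha2 : ¬ (2 : ℤ) ∣ a := by
    intro h
    have h2 : (2 : ℤ) ∣ gcd a b := dvd_gcd h hb2
    rw [hg] at h2
    omega
  have hcases : a % 4 = 3 ∨ a % 4 = 1 := by omega
  rcases hcases with h | h
  · refine ⟨⟨a, b, c, ha, hb, hc, p, pp, hp5, H, hg, ?_, hb2'⟩⟩
    have : (a : ZMod 4) = ((3 : ℤ) : ZMod 4) := by
      rw [ZMod.intCast_eq_intCast_iff]
      show a % ((4 : ℕ) : ℤ) = 3 % ((4 : ℕ) : ℤ)
      omega
    simpa using this
  · refine ⟨⟨-a, -b, -c, neg_ne_zero.2 ha, neg_ne_zero.2 hb, neg_ne_zero.2 hc, p, pp, hp5, ?_, ?_,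
      ?_, ?_⟩⟩
    · rw [hpodd.neg_pow, hpodd.neg_pow, hpodd.neg_pow, ← H]; ring
    · rw [gcd_neg, neg_gcd]; exact hg
    · have : ((-a : ℤ) : ZMod 4) = ((3 : ℤ) : ZMod 4) := by
        rw [ZMod.intCast_eq_intCast_iff]
        show (-a) % ((4 : ℕ) : ℤ) = 3 % ((4 : ℕ) : ℤ)
        omega
      simpa using this
    · rw [ZMod.intCast_zmod_eq_zero_iff_dvd]
      exact (dvd_neg).2 hb2

/-- Step 2: coprime; move the even entry into the `b` slot. -/
theorem step2 (a b c : ℤ) (ha : a ≠ 0) (hb : b ≠ 0) (hc : c ≠ 0) (p : ℕ) (pp : p.Prime)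
    (hp5 : 5 ≤ p) (H : a ^ p + b ^ p = c ^ p) (hg : gcd a b = 1) :
    Nonempty FreyPackage := by
  have hpodd : Odd p := pp.odd_of_ne_two (by omega)
  have hp0 : p ≠ 0 := by omega
  by_cases hb2 : (2 : ℤ) ∣ b
  · exact step3 a b c ha hb hc p pp hp5 H hg hb2
  by_cases ha2 : (2 : ℤ) ∣ a
  · exact step3 b a c hb ha hc p pp hp5 (by rw [add_comm]; exact H) (by rw [gcd_comm]; exact hg) ha2
  -- both odd: `c` is even
  have hc2 : (2 : ℤ) ∣ c := by
    have hao : Odd a := by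
      rw [← Int.not_even_iff_odd, even_iff_two_dvd]; exact ha2
    have hbo : Odd b := by
      rw [← Int.not_even_iff_odd, even_iff_two_dvd]; exact hb2
    have h1 : Even (c ^ p) := by
      rw [← H]; exact (hao.pow).add_odd (hbo.pow)
    have h2 : Even c := (Int.even_pow.1 h1).1
    exact even_iff_two_dvd.1 h2
  refine step3 a (-c) (-b) ha (neg_ne_zero.2 hc) (neg_ne_zero.2 hb) p pp hp5 ?_ ?_ ((dvd_neg).2 hc2)
  · rw [hpodd.neg_pow, hpodd.neg_pow, ← H]; ring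
  · rw [gcd_neg, ← gcdab_eq_gcdac (by omega) H]; exact hg

theorem result (a b c : ℤ) (ha : a ≠ 0) (hb : b ≠ 0) (hc : c ≠ 0) (p : ℕ) (pp : p.Prime) (hp5 : 5 ≤ p) (H : a ^ p + b ^ p = c ^ p) : Nonempty FreyPackage := by
  have hp0 : p ≠ 0 := by omega
  -- divide through by the gcd
  have hgpos : 0 < Int.gcd a b := Int.gcd_pos_of_ne_zero_left b ha
  obtain ⟨a', b', hcop, ha', hb'⟩ := Int.exists_gcd_one hgpos
  set d : ℤ := (Int.gcd a b : ℤ) with hd
  have hd0 : d ≠ 0 := by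
    rw [hd]; exact_mod_cast hgpos.ne'
  have hdc : d ∣ c := by
    rw [← Int.pow_dvd_pow_iff hp0, ← H, ha', hb', mul_pow, mul_pow]
    exact dvd_add (Dvd.intro_left _ rfl) (Dvd.intro_left _ rfl)
  obtain ⟨c', hc'⟩ := hdc
  have ha0' : a' ≠ 0 := by
    rintro rfl; apply ha; rw [ha']; simp
  have hb0' : b' ≠ 0 := by
    rintro rfl; apply hb; rw [hb']; simp
  have hc0' : c' ≠ 0 := by
    rintro rfl; apply hc; rw [hc']; simp
  have H' : a' ^ p + b' ^ p = c' ^ p := by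
    have h1 : d ^ p * (a' ^ p + b' ^ p) = d ^ p * c' ^ p := by
      have h2 := H
      rw [ha', hb', hc'] at h2
      linear_combination h2
    exact mul_left_cancel₀ (pow_ne_zero p hd0) h1
  refine step2 a' b' c' ha0' hb0' hc0' p pp hp5 H' ?_
  show ((Int.gcd a' b' : ℕ) : ℤ) = 1
  rw [hcop]; rfl

end Fermat.Agent.S02
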