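-- Statement S07: every weight-2 cusp form of level Gamma0(2) is zero.
-- Proof: Sturm bound (prelude) with index of Gamma0(2) at most 4, so only the constant term matters.
import Fermat.Statements.S07
import Fermat.Prelude.Thm_ModularForm_sturm_bound_Gamma0
import Fermat.Prelude.Thm_CongruenceSubgroup_one_mem_strictPeriods_Gamma0

set_option autoImplicit false
open WeierstrassCurve WeierstrassCurve.Affine WeierstrassCurve.Affine.Point
open CuspForm ModularFormClass UpperHalfPlane
open ModularForm

namespace Fermat.Agent.S07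

open scoped MatrixGroups

lemma index_Gamma0_two_le : (CongruenceSubgroup.Gamma0 2).index ≤ 4 := by
  classical
  let φ : (SL(2, ℤ) ⧸ CongruenceSubgroup.Gamma0 2) → ZMod 2 × ZMod 2 :=
    fun q => (((q.out 0 0 : ℤ) : ZMod 2), ((q.out 1 0 : ℤ) : ZMod 2))
  have hφ : Function.Injective φ := by
    intro q1 q2 h
    rw [← QuotientGroup.out_eq' q1, ← QuotientGroup.out_eq' q2, QuotientGroup.eq,
      CongruenceSubgroup.Gamma0_mem]
    have h1 : ((q1.out 0 0 : ℤ) : ZMod 2) = ((q2.out 0 0 : ℤ) : ZMod 2) := congrArg Prod.fst h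
    have h2 : ((q1.out 1 0 : ℤ) : ZMod 2) = ((q2.out 1 0 : ℤ) : ZMod 2) := congrArg Prod.snd h
    have key : (((q1.out)⁻¹ * q2.out : SL(2, ℤ)) 1 0 : ℤ)
        = -(q1.out 1 0) * q2.out 0 0 + q1.out 0 0 * q2.out 1 0 := by
      rw [Matrix.SpecialLinearGroup.coe_mul, Matrix.SpecialLinearGroup.coe_inv,
        Matrix.adjugate_fin_two, Matrix.mul_apply, Fin.sum_univ_two]
      simp
    rw [key]
    push_cast
    rw [h1, h2]
    ring
  have := Nat.card_le_card_of_injective φ hφ
  simpa [Subgroup.index, Nat.card_prod] using this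

theorem result (f : CuspForm (CongruenceSubgroup.Gamma0 2) 2) : f = 0 := by
  have hF : (CuspForm.toModularFormₗ f) = 0 := by
    apply ModularForm.sturm_bound_Gamma0 2
    intro n hn
    have hidx := index_Gamma0_two_le
    have hn0 : n = 0 := by
      have : ((2 : ℤ) * ((CongruenceSubgroup.Gamma0 2).index : ℤ)).toNat / 12 = 0 := by
        omega
      omega
    subst hn0
    exact CuspFormClass.qExpansion_coeff_zero f one_pos
      (by simp [CongruenceSubgroup.strictPeriods_Gamma0])
  exact CuspForm.toModularFormₗ_injective (by simpa using hF)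

end Fermat.Agent.S07
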