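-- Statement S11: no Galois-stable cofixed line for the Frey curve when p = 11.
-- Proof: there is no Frey package with this exponent (Kummer's proof of FLT for p = 11).
import Fermat.Statements.S11
import Fermat.Agent.Lib.Kummer.Small

set_option autoImplicit false
open WeierstrassCurve WeierstrassCurve.Affine WeierstrassCurve.Affine.Point
open CuspForm ModularFormClass UpperHalfPlane
open FreyPackage

namespace Fermat.Agent.S11

theorem result (P : FreyPackage) (hp : P.p = 11) : ¬ HasGaloisStableCofixedLine (K := AlgebraicClosure ℚ) ℚ P.freyCurve P.p := by
  exfalso
  exact Fermat.Agent.KummerLib.false_of_freyPackage_small P (Or.inr (Or.inr (Or.inl hp)))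

end Fermat.Agent.S11
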