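-- Statement S17: the Mordell-Weil theorem for `J_0(N)` over `ℚ`, `N ≥ 5` prime.
import Fermat.Statements.S17
import Fermat.Agent.S17.Top.CubeH

set_option autoImplicit false
open ModularCurve AlgebraicCurve
open ModularCurve ModularCurve.JZero

namespace Fermat.Agent.S17

theorem result (N : ℕ) [NeZero N] (hN : N.Prime) (hN5 : 5 ≤ N) :
    AddGroup.FG ↥(FixedPoints.addSubgroup ((AlgebraicClosure ℚ) ≃ₐ[ℚ] (AlgebraicClosure ℚ)) (JZero N)) :=
  Fermat.Agent.S17Lib.TCH_fg N hN

end Fermat.Agent.S17
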