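import Fermat.Statements.S19
import Fermat.Agent.S19.Hopf
import Fermat.Agent.S19.Geo
import Fermat.Agent.S19.Mod
import Fermat.Agent.S19.Lev
import Fermat.Agent.Lib.FrobeniusExists

set_option autoImplicit false
set_option synthInstance.maxHeartbeats 400000
open ModularCurve
open ModularCurve

namespace Fermat.Agent.S19

open AlgebraicCurve Fermat.Agent.S19Lib Fermat.Agent.S18Lib Fermat.Agent.FFLib

theorem smul_mem_torsionBy (M : ℕ) [NeZero M] (a : ℤ) (σ : GQ) (x : JZero M)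
    (hx : x ∈ Submodule.torsionBy ℤ (JZero M) a) :
    σ • x ∈ Submodule.torsionBy ℤ (JZero M) a := by
  rw [Submodule.mem_torsionBy_iff] at hx ⊢
  have h := (DistribSMul.toAddMonoidHom (JZero M) σ).map_zsmul a x
  have h2 : a • (σ • x) = σ • (a • x) := h.symm
  rw [h2, hx]
  exact smul_zero σ

theorem not_inv_mem {ℓ : ℕ} (hℓ : ℓ.Prime) (A : ValuationSubring Qb) (hA : A.LiesOverPrime ℓ) :
    ((ℓ : Qb))⁻¹ ∉ A := by
  intro h
  have h1 : (ℓ : Qb) ∈ A.nonunits := hA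
  rw [ValuationSubring.mem_nonunits_iff_exists_mem_maximalIdeal] at h1
  obtain ⟨ha, hm⟩ := h1
  apply (IsLocalRing.mem_maximalIdeal _).mp hm
  refine IsUnit.of_mul_eq_one (⟨_, h⟩ : A) (Subtype.ext ?_)
  show (ℓ : Qb) * (ℓ : Qb)⁻¹ = 1
  exact mul_inv_cancel₀ (by exact_mod_cast hℓ.ne_zero)

/-- the integral representation at a level of good reduction -/
theorem isIntRep_good (M : ℕ) [NeZero M] {ℓ : ℕ} [Fact ℓ.Prime] (hℓM : ¬ ℓ ∣ M)
    (hbase : 2 ∣ M ∨ 3 ∣ M) (A : ValuationSubring Qb) (hA : A.LiesOverPrime ℓ) (n : ℕ)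
    (hn : 0 < n) :
    IsIntRep A (Submodule.torsionBy ℤ (JZero M) (n : ℤ)).toAddSubgroup
      (fun σ x => ⟨σ • (x : JZero M), smul_mem_torsionBy M n σ x x.2⟩) := by
  have := isAlgClosed_kk A
  obtain ⟨R, hR⟩ := exists_redData M hℓM A hA
  have : Finite (Submodule.torsionBy ℤ (JZero M) (n : ℤ)).toAddSubgroup :=
    finite_torsion M n hn
  exact geo_abs (FB M) (FT A M) (isFF_FB M) (isFF_FT A M) IsLocalRing.residue_surjective
    ⟨_, not_inv_mem Fact.out A hA⟩ R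
    (genusR_FB_le M hℓM hbase A hA) (arithmeticGalois (modularFunctionFieldFull M))
    (fun σ f => coe_arithmeticGalois_smul _ σ f) (fun σ a => rfl) (ratF M)
    (fun σ a ha => ratF_fix M σ a ha) (ratF_gen M) (ratF_orth M A hA R hR) _
    (fun σ x hx => smul_mem_torsionBy M n σ x hx)

theorem result
    (p : ℕ) [NeZero p] (ℓ : ℕ) [Fact ℓ.Prime] (hℓp : ¬ ℓ ∣ p) (k : ℕ) :
    ∃ (H : Type) (_ : CommRing H) (_ : HopfAlgebra (GaloisRep.ratLocalizedAt ℓ) H),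
      Module.Finite (GaloisRep.ratLocalizedAt ℓ) H ∧ Module.Flat (GaloisRep.ratLocalizedAt ℓ) H ∧
      Coalgebra.IsCocomm (GaloisRep.ratLocalizedAt ℓ) H ∧
      ∃ e : WithConv (H →ₐ[GaloisRep.ratLocalizedAt ℓ] AlgebraicClosure ℚ) ≃
          ↥(Submodule.torsionBy ℤ (JZero p) ((ℓ : ℤ) ^ k)),
        (∀ f g, e (f * g) = e f + e g) ∧
        ∀ (σ : AlgebraicClosure ℚ ≃ₐ[ℚ] AlgebraicClosure ℚ)
          (f g : WithConv (H →ₐ[GaloisRep.ratLocalizedAt ℓ] AlgebraicClosure ℚ)),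
          (∀ h : H, g h = σ (f h)) → ((e g : JZero p)) = σ • (e f : JZero p) := by
  have hℓ : ℓ.Prime := Fact.out
  obtain ⟨M, hM, hℓM, hbase, Φ, hΦσ, hΦinj⟩ := exists_level_map p hℓ hℓp
  obtain ⟨A, hA⟩ := Fermat.Agent.FrobLib.exists_liesOverPrime hℓ
  have hn : 0 < ℓ ^ k := pow_pos hℓ.pos k
  have hcast : ((ℓ ^ k : ℕ) : ℤ) = (ℓ : ℤ) ^ k := by push_cast; rfl
  have hrep := isIntRep_good M hℓM hbase A hA (ℓ ^ k) hn
  -- the map on torsion
  have hmem : ∀ x : Submodule.torsionBy ℤ (JZero p) ((ℓ : ℤ) ^ k),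
      Φ (x : JZero p) ∈ (Submodule.torsionBy ℤ (JZero M) ((ℓ ^ k : ℕ) : ℤ)).toAddSubgroup := by
    intro x
    have hx : ((ℓ : ℤ) ^ k) • (x : JZero p) = 0 := (Submodule.mem_torsionBy_iff _ _).mp x.2
    show Φ (x : JZero p) ∈ Submodule.torsionBy ℤ (JZero M) ((ℓ ^ k : ℕ) : ℤ)
    rw [Submodule.mem_torsionBy_iff, hcast, ← map_zsmul, hx, map_zero]
  let φ : Submodule.torsionBy ℤ (JZero p) ((ℓ : ℤ) ^ k) →+
      (Submodule.torsionBy ℤ (JZero M) ((ℓ ^ k : ℕ) : ℤ)).toAddSubgroup :=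
    { toFun := fun x => ⟨Φ (x : JZero p), hmem x⟩
      map_zero' := Subtype.ext (map_zero Φ)
      map_add' := fun x y => Subtype.ext (map_add Φ _ _) }
  have hφinj : Function.Injective φ := by
    rw [injective_iff_map_eq_zero]
    intro x hx
    have h1 : Φ (x : JZero p) = 0 := congrArg Subtype.val hx
    have h2 : ((ℓ ^ k : ℕ) : ℤ) • (x : JZero p) = 0 := by
      rw [hcast]; exact (Submodule.mem_torsionBy_iff _ _).mp x.2
    exact Subtype.ext (hΦinj (ℓ ^ k) _ hn h2 h1)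
  have hrep' : IsIntRep A (Submodule.torsionBy ℤ (JZero p) ((ℓ : ℤ) ^ k))
      (fun σ x => ⟨σ • (x : JZero p), smul_mem_torsionBy p _ σ x x.2⟩) :=
    hrep.of_injective φ hφinj (fun σ x => Subtype.ext (hΦσ σ _))
  have hfin : Finite (Submodule.torsionBy ℤ (JZero p) ((ℓ : ℤ) ^ k)) := by
    rw [← hcast]; exact finite_torsion p (ℓ ^ k) hn
  obtain ⟨r, c, h1, h2, h3, h4, h5⟩ := hrep'
  obtain ⟨H, i1, i2, f1, f2, f3, e, he1, he2⟩ := hopf_of_rep ℓ _ _ A (not_inv_mem hℓ A hA) r c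
    h1 h2 h3 h4 h5
  exact ⟨H, i1, i2, f1, f2, f3, e, he1, fun σ f g hfg => congrArg Subtype.val (he2 σ f g hfg)⟩

end Fermat.Agent.S19
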