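-- Statement S24: the genus of the function field of X₀(N) over Q̄ is the classical genus formula.
import Fermat.Statements.S24
import Fermat.Agent.S24.Fibres
import Fermat.Agent.S20

set_option autoImplicit false
open ModularCurve

namespace Fermat.Agent.S24

open Fermat.Agent.S24Lib Fermat.Agent.S20Lib AlgebraicCurve KaehlerDifferential UpperHalfPlane
  CongruenceSubgroup ModularGroup MatrixGroups in
theorem result (N : ℕ) [NeZero N]
    [AlgebraicCurve.HasCanonicalDivisor (K := AlgebraicClosure ℚ) (F := ↥(ModularCurve.modularFunctionFieldBar N))] :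
    (AlgebraicCurve.genus (AlgebraicClosure ℚ) ↥(ModularCurve.modularFunctionFieldBar N) : ℚ)
      = ModularCurve.genusFormula N := by
  classical
  have hFF := isFF_bar N
  have hx := transcendental_jBar N
  have hex : ∃ ω : Ω[↥(modularFunctionFieldBar N)⁄AlgebraicClosure ℚ], ω ≠ 0 :=
    ⟨D _ _ (jBar N), D_ne_zero hFF hx⟩
  have hι : Function.Injective iotaC := iotaC.injective
  -- unramified outside `{0, 1728}`
  have hS : ∀ c : AlgebraicClosure ℚ, c ∉ ({0, 1728} : Finset (AlgebraicClosure ℚ)) →
      ∀ v ∈ zerosOf (AlgebraicClosure ℚ)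
        (jBar N - algebraMap (AlgebraicClosure ℚ) (modularFunctionFieldBar N) c),
      v.ord (jBar N - algebraMap (AlgebraicClosure ℚ) (modularFunctionFieldBar N) c) = 1 := by
    intro c hc
    simp only [Finset.mem_insert, Finset.mem_singleton, not_or] at hc
    obtain ⟨τ₀, hτ₀⟩ := jan_surjective (iotaC c)
    refine ord_eq_one_of_generic N c τ₀ hτ₀.symm ?_ ?_
    · rw [hτ₀]; intro h; exact hc.1 (hι (by rw [h, map_zero]))
    · rw [hτ₀]; intro h; exact hc.2 (hι (by rw [h, map_ofNat]))
  have hdeg := degree_canonicalDivisorOf hFF hx {0, 1728} hS hex.choose_spec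
  have hne : (0 : AlgebraicClosure ℚ) ≠ 1728 := by norm_num
  rw [Finset.sum_pair hne, finrank_eq_index, index_Gamma0] at hdeg
  -- the three special fibres
  have h0 := card_zerosOf_special N 0 rhoH (by rw [map_zero, jan_rhoH]) (S * T) ST_smul_rhoH 3
    Nat.prime_three (Fib.ST_pow_three_smul N)
    (by rw [order_taylorH_jan_sub, if_pos jan_rhoH]; rfl)
    (fun k hk => three_dvd_of_zpow_eq_one k (by simpa only [map_mul] using hk))
  have h1 := card_zerosOf_special N 1728 I (by rw [map_ofNat, jan_I]) S S24Lib.S_smul_I 2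
    Nat.prime_two (Fib.S_pow_two_smul N)
    (by rw [order_taylorH_jan_sub, if_neg (by rw [jan_I]; norm_num), if_pos jan_I]; rfl)
    two_dvd_of_zpow_eq_one
  have hinf := card_zerosOf_inv N
  rw [card_orbits_T] at hinf
  have c0 := orbit_count_of_prime (X := SL(2, ℤ) ⧸ Gamma0 N) (S * T) 3 Nat.prime_three
    (Fib.ST_pow_three_smul N)
  have c1 := orbit_count_of_prime (X := SL(2, ℤ) ⧸ Gamma0 N) S 2 Nat.prime_two
    (Fib.S_pow_two_smul N)
  rw [card_fixed_ST] at c0
  rw [card_fixed_S] at c1
  have hcard : Nat.card (SL(2, ℤ) ⧸ Gamma0 N) = dedekindPsi N := index_Gamma0 N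
  rw [hcard] at c0 c1
  replace c0 : 3 * Nat.card (zerosOf (AlgebraicClosure ℚ)
      (jBar N - algebraMap (AlgebraicClosure ℚ) (modularFunctionFieldBar N) 0)) =
      dedekindPsi N + (3 - 1) * nuThree N := by rw [h0]; exact c0
  replace c1 : 2 * Nat.card (zerosOf (AlgebraicClosure ℚ)
      (jBar N - algebraMap (AlgebraicClosure ℚ) (modularFunctionFieldBar N) 1728)) =
      dedekindPsi N + (2 - 1) * nuTwo N := by rw [h1]; exact c1
  rw [hinf] at hdeg
  have hS20 := Fermat.Agent.S20.result N
  set d := Module.finrank ℂ (CuspForm (CongruenceSubgroup.Gamma0 N) 2) with hd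
  set z0 := Nat.card (zerosOf (AlgebraicClosure ℚ)
    (jBar N - algebraMap (AlgebraicClosure ℚ) (modularFunctionFieldBar N) 0)) with hz0
  set z1 := Nat.card (zerosOf (AlgebraicClosure ℚ)
    (jBar N - algebraMap (AlgebraicClosure ℚ) (modularFunctionFieldBar N) 1728)) with hz1
  have key : Divisor.degree (canonicalDivisorOf hex.choose_spec) + 2 = 2 * (d : ℤ) := by
    have hq : ((Divisor.degree (canonicalDivisorOf hex.choose_spec) + 2 : ℤ) : ℚ) =
        ((2 * (d : ℤ) : ℤ) : ℚ) := by
      rw [hdeg]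
      push_cast
      rw [hS20, genusFormula]
      have c0' : (3 : ℚ) * z0 = dedekindPsi N + 2 * nuThree N := by exact_mod_cast c0
      have c1' : (2 : ℚ) * z1 = dedekindPsi N + 1 * nuTwo N := by exact_mod_cast c1
      linarith
    exact_mod_cast hq
  rw [← hS20]
  unfold genus
  rw [dif_pos hex, key]
  have : (2 * (d : ℤ)).toNat / 2 = d := by
    have : (2 * (d : ℤ)).toNat = 2 * d := by omega
    rw [this]; omega
  rw [this]

end Fermat.Agent.S24
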