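import Fermat.Statements.S28
import Fermat.Agent.S28.Chart
import Fermat.Agent.S28.Reduction
import Fermat.Agent.S28.Tensor
import Fermat.Agent.S28.Scheme

set_option autoImplicit false
open AlgebraicGeometry CategoryTheory CategoryTheory.Limits ModularCurve ModularCurve.IgusaScheme
noncomputable section
set_option autoImplicit false
open ModularCurve ModularCurve.IgusaScheme

namespace Fermat.Agent.S28

open Fermat.Agent.S28Lib in
set_option maxHeartbeats 4000000 in
set_option synthInstance.maxHeartbeats 400000 in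
theorem result
    (N : ℕ) [NeZero N] (ℓ : ℕ) [Fact ℓ.Prime] (hℓN : ¬ ℓ ∣ N)
    (K : Type) [Field K] [CharP K ℓ] [Algebra ↥(GaloisRep.ratLocalizedAt ℓ) K] :
    IsIntegral ↑(pullback (igusaTo N ℓ)
      (Spec.map (CommRingCat.ofHom (algebraMap ↥(GaloisRep.ratLocalizedAt ℓ) K)))) := by
  obtain ⟨φ₁, h₁⟩ := exists_reduction N ℓ (chartData_fin N ℓ hℓN) (jFull N) (coe_jFull_eq N)
  obtain ⟨φ₂, h₂⟩ := exists_reduction N ℓ (chartData_inf N ℓ hℓN) (jFull N)⁻¹ (coe_jFull_inv_eq N)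
  obtain ⟨φ₃⟩ := exists_ringHom_of N ℓ (chartData_fin N ℓ hℓN) {jFull N, (jFull N)⁻¹} (by
    intro z hz
    rcases hz with rfl | hz
    · rw [coe_jFull_eq]; exact red_bc_mem_range ℓ _
    · rw [Set.mem_singleton_iff.mp hz, coe_jFull_inv_eq]; exact red_bc_mem_range ℓ _)
  exact Fermat.Agent.S28Lib.isIntegral_pullback_igusaTo N ℓ K (isDomain_tensor ℓ _ K φ₁ h₁)
    (isDomain_tensor ℓ _ K φ₂ h₂) (nontrivial_tensor ℓ _ K φ₃)

end Fermat.Agent.S28
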