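-- Statement S44 (row 38): level lowering at `p` for the Frey curve (Mazur-Ribet).
import Fermat.Statements.S44
import Fermat.Agent.S44.OfCov
import Fermat.Agent.S40.Cov.Main
import Fermat.Agent.S40.Cov.ExCovY

set_option autoImplicit false
open WeierstrassCurve WeierstrassCurve.Affine WeierstrassCurve.Affine.Point
open CuspForm ModularFormClass UpperHalfPlane
open FreyPackage

namespace Fermat.Agent.S44

theorem result (P : FreyPackage) {N : ℕ} (hcond : P.IsConductorLevel N) (hpN : P.p ∣ N) (hirr : GaloisRepIsIrreducible (K := AlgebraicClosure ℚ) ℚ P.freyCurve P.p) (hmod : P.ModularRepOfLevel N) : ∃ M : ℕ, M ∣ N ∧ ¬ P.p ∣ M ∧ P.ModularRepOfLevel M :=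
  Fermat.Agent.S44Lib.s44_of_cov
    (Fermat.Agent.S40Lib.covCore_of
      (fun M p _ _ _ hpM hp5 A hA hb x y c =>
        Fermat.Agent.S40Lib.exists_covY M p hpM hp5 A hA hb x y c))
    P hcond hpN hirr hmod

end Fermat.Agent.S44
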