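import Fermat.Statements.S49
import Fermat.Agent.S49.Eigen

set_option autoImplicit false
open CuspForm EisensteinWeightOne CongruenceSubgroup ModularFormClass
open FLT FLT.AbstractIntegralStructure

namespace Fermat.Agent.S49

open Fermat.Agent.S49Lib in
theorem result
    {N : ℕ} [NeZero N] (h : CuspForm.HasIntegralBasis N) {a : ℕ → ℤ}
    (heig : FormalHecke.IsEigensystem
      (fun ℓ => if ℓ ∣ N then 0 else ((chiNegThree ℓ : ℤ) : ℤ)) a)
    (hreal : CuspForm.IsLatticeRealized N a) :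
    ∃ (f : CuspForm (Gamma0 N) 2) (_ : f.IsNormalizedEigenform)
      (𝔪' : Ideal (integralClosure ℤ ℂ)), 𝔪'.IsMaximal ∧
      ((3 : ℕ) : integralClosure ℤ ℂ) ∈ 𝔪' ∧
      ∀ (ℓ : ℕ) (_ : ℓ.Prime) (_ : ¬ ℓ ∣ N),
        ∃ c : integralClosure ℤ ℂ, (c : ℂ) = ModularFormClass.qCoeff f ℓ ∧
          c - (a ℓ : integralClosure ℤ ℂ) ∈ 𝔪' := by
  obtain ⟨f₀, hf₀, af, haf, hcong⟩ := hreal
  have hafa : ∀ n, (3 : ℤ) ∣ af n - a n := fun n => by
    have := dvd_add (hcong n) (three_dvd_bridgeProduct_coeff_sub a n)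
    simpa using this
  have hfd : FiniteDimensional ℂ (CuspForm (Gamma0 N) 2) := finiteDimensional_of_hasIntegralBasis h
  have hfin : Module.Finite ℤ (heckeAlgebra N 2 (∅ : Set ℕ)) := heckeAlgebra_finite h ∅
  have h1 : ¬ (3 : ℤ) ∣ af 1 := by
    intro hd
    have h2 := hafa 1
    rw [heig.1] at h2
    have : (3 : ℤ) ∣ 1 := by
      have := dvd_sub hd h2
      simp at this
    omega
  obtain ⟨𝔪, h𝔪max, hI𝔪⟩ := Ideal.exists_le_maximal _ (congIdeal_ne_top f₀ af haf h1)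
  have h𝔪prime : 𝔪.IsPrime := h𝔪max.isPrime
  obtain ⟨v, χ, hv0, hχ, hker⟩ := exists_eigenchar_ker_le (K := ℂ)
    (V := CuspForm (Gamma0 N) 2) ((heckeAlgebra N 2 (∅ : Set ℕ)).val.toRingHom)
    Subtype.val_injective 𝔪
  obtain ⟨g, hg, hgχ⟩ := exists_normalizedEigenform_of_eigenvector v hv0 χ hχ
  -- the eigen-character takes integral values
  have hint : ∀ t, χ t ∈ integralClosure ℤ ℂ := fun t =>
    map_isIntegral_int χ (Algebra.IsIntegral.isIntegral (R := ℤ) t)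
  let χ' : heckeAlgebra N 2 (∅ : Set ℕ) →+* integralClosure ℤ ℂ :=
    χ.codRestrict (integralClosure ℤ ℂ) hint
  have hker' : RingHom.ker χ' ≤ 𝔪 := by
    intro t ht
    apply hker
    rw [RingHom.mem_ker] at ht ⊢
    exact congrArg Subtype.val ht
  have hχ'int : χ'.IsIntegral := by
    apply RingHom.IsIntegral.tower_top (Int.castRingHom (heckeAlgebra N 2 (∅ : Set ℕ))) χ'
    have : χ'.comp (Int.castRingHom (heckeAlgebra N 2 (∅ : Set ℕ))) =
        algebraMap ℤ (integralClosure ℤ ℂ) := RingHom.ext_int _ _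
    rw [this]
    exact algebraMap_isIntegral_iff.mpr inferInstance
  have hmap : 𝔪.map χ' ≠ ⊤ := fun htop =>
    h𝔪max.ne_top ((Ideal.map_eq_top_iff_of_ker_le χ' hker' hχ'int).mp htop)
  obtain ⟨𝔪', h𝔪'max, h𝔪'⟩ := Ideal.exists_le_maximal _ hmap
  refine ⟨g, hg, 𝔪', h𝔪'max, ?_, ?_⟩
  · have h3 : (3 : heckeAlgebra N 2 (∅ : Set ℕ)) ∈ 𝔪 :=
      hI𝔪 (three_mem_congIdeal f₀ ((mem_qIntegralSet_iff f₀).mp hf₀))
    have := h𝔪' (Ideal.mem_map_of_mem χ' h3)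
    have e3 : χ' (3 : heckeAlgebra N 2 (∅ : Set ℕ)) = ((3 : ℕ) : integralClosure ℤ ℂ) := by
      rw [← map_natCast χ' 3]
      rfl
    rwa [e3] at this
  · intro ℓ hℓ hℓN
    refine ⟨χ' (heckeAlgebra.T hℓ hℓN (Set.notMem_empty ℓ)), (hgχ ℓ hℓ hℓN).symm, ?_⟩
    have hmem := hI𝔪 (T_sub_mem_congIdeal f₀ af a haf hafa heig hℓ hℓN)
    have := h𝔪' (Ideal.mem_map_of_mem χ' hmem)
    simpa using this

end Fermat.Agent.S49
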