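import Fermat.Statements.S51
import Fermat.Agent.S51.Descent
import Fermat.Agent.S51.Glue
import Fermat.Agent.S51.Nontriv3
import Fermat.Agent.S51.Nontriv5
import Fermat.Agent.S51.Rat3
import Fermat.Agent.S51.Rat5

set_option autoImplicit false
open WeierstrassCurve WeierstrassCurve.Affine WeierstrassCurve.Affine.Point
open CuspForm ModularFormClass UpperHalfPlane
open WeierstrassCurve

namespace Fermat.Agent.S51

open Fermat.Agent.S51Lib in
theorem result (W : WeierstrassCurve ℤ) (hΔ : W.Δ ≠ 0) (hW : W.IsSemistableModel) : W.ModRepIsIrreducible 3 ∨ W.ModRepIsIrreducible 5 := by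
  by_contra hcon
  rw [not_or] at hcon
  obtain ⟨h3, h5⟩ := hcon
  have hΔE : (W.map (Int.castRingHom ℚ)).Δ ≠ 0 := by
    rw [WeierstrassCurve.map_Δ]
    simpa using hΔ
  have hc4 : (W.map (Int.castRingHom ℚ)).c₄ = (W.c₄ : ℚ) := by
    rw [WeierstrassCurve.map_c₄]; rfl
  have hc6 : (W.map (Int.castRingHom ℚ)).c₆ = (W.c₆ : ℚ) := by
    rw [WeierstrassCurve.map_c₆]; rfl
  unfold WeierstrassCurve.ModRepIsIrreducible GaloisRepIsIrreducible at h3 h5
  rw [not_and] at h3 h5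
  have h3' := h3 (nontrivial_three _ hΔE)
  have h5' := h5 (nontrivial_five _ hΔE)
  push Not at h3' h5'
  obtain ⟨N3, hN3, h30, h31⟩ := h3'
  obtain ⟨N5, hN5, h50, h51⟩ := h5'
  obtain ⟨x0, hx0⟩ := exists_rat_three _ hΔE N3 hN3 h30 h31
  obtain ⟨s, p, h5a, h5b, hne⟩ := exists_rat_five _ hΔE N5 hN5 h50 h51
  rw [hc4, hc6] at hx0 h5a
  rw [hc4] at h5b
  exact no_rational_data_of F2_points W.c₄ W.c₆ W.Δ (by have := W.c_relation; linarith) hΔ hW
    _ _ x0 s p rfl rfl hx0 h5a h5b hne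

end Fermat.Agent.S51
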