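-- S52 (3-5 switch): Rubin--Silverberg family, elementary proof; library in Fermat/Agent/S52/.
import Fermat.Statements.S52
import Fermat.Agent.S52.Irred
import Fermat.Agent.S52.Card
import Fermat.Agent.S52.Final

set_option autoImplicit false
open WeierstrassCurve WeierstrassCurve.Affine WeierstrassCurve.Affine.Point
open CuspForm ModularFormClass UpperHalfPlane
open WeierstrassCurve

namespace Fermat.Agent.S52

open Fermat.Agent.S52Lib in
theorem result (W : WeierstrassCurve ℤ) (hΔ : W.Δ ≠ 0) (hW : W.IsSemistableModel) (h5 : W.ModRepIsIrreducible 5) : ∃ W' : WeierstrassCurve ℤ, W'.Δ ≠ 0 ∧ W'.IsSemistableModel ∧ W'.ModRepIsIrreducible 3 ∧ ∀ ℓ : ℕ, ℓ.Prime → W.IsGoodPrimeFor ℓ → W'.IsGoodPrimeFor ℓ → ℓ ≠ 5 → (5 : ℤ) ∣ (W'.apOfModel ℓ - W.apOfModel ℓ) := by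
  obtain ⟨m, hm, hD, hirr⟩ := exists_irred W hΔ hW
  refine ⟨famW W m, ?_, famW_semistable W m hW hm, hirr, ?_⟩
  · rw [famW_Δ]
    exact mul_ne_zero hΔ (pow_ne_zero _ hD)
  intro ℓ hℓ hg hg' hℓ5
  by_cases hdvd : (ℓ : ℤ) ∣ m
  · unfold WeierstrassCurve.apOfModel
    rw [famW_reductionMod W m hdvd, sub_self]
    exact dvd_zero _
  -- `ℓ ∤ m`, so `ℓ ∤ 30`
  have h30 : ¬ (ℓ : ℤ) ∣ 30 := fun h => hdvd (h.trans ((Dvd.intro _ rfl).trans hm))
  have h7 : 7 ≤ ℓ := by
    by_contra hlt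
    push Not at hlt
    have h2 := hℓ.two_le
    interval_cases ℓ
    · exact h30 (by norm_num)
    · exact h30 (by norm_num)
    · exact absurd hℓ (by norm_num)
    · exact hℓ5 rfl
    · exact absurd hℓ (by norm_num)
  unfold WeierstrassCurve.IsGoodPrimeFor at hg hg'
  have hc := card_eq_short W hℓ (by omega) hg
  have hc' := card_eq_short (famW W m) hℓ (by omega) hg'
  rw [famW_c₄, famW_c₆] at hc'
  have hprime : Prime (ℓ : ℤ) := Nat.prime_iff_prime_int.mp hℓ
  have hgood : ¬ (ℓ : ℤ) ∣ (W.c₄ ^ 3 - W.c₆ ^ 2) * Dp W.c₄ W.c₆ (1728 * m) := by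
    intro h
    rcases hprime.dvd_or_dvd h with h | h
    · rw [← W.c_relation] at h
      rcases hprime.dvd_or_dvd h with h | h
      · apply h30
        have : (ℓ : ℤ) ∣ 30 ^ 6 := h.trans (by norm_num)
        exact hprime.dvd_of_dvd_pow this
      · exact hg h
    · apply hg'
      rw [famW_Δ]
      exact Dvd.dvd.mul_left (dvd_pow h (by norm_num)) _
  have key := card_congr W.c₄ W.c₆ (1728 * m) hℓ h7 hgood
  unfold WeierstrassCurve.apOfModel WeierstrassCurve.traceOfFrobenius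
  rw [hc, hc']
  have := key
  omega

end Fermat.Agent.S52
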