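-- Statement S53: existence of the universal deformation ring.
import Fermat.Statements.S53
import Fermat.Agent.S53.Final

set_option autoImplicit false
set_option autoImplicit false
open GaloisRep

namespace Fermat.Agent.S53

open Fermat.Agent.S53Lib in
theorem result
    (𝒪 : Type) [CommRing 𝒪] [IsDomain 𝒪] [IsDiscreteValuationRing 𝒪]
    [IsAdicComplete (IsLocalRing.maximalIdeal 𝒪) 𝒪] [Finite (IsLocalRing.ResidueField 𝒪)]
    (ρbar : ResidualGaloisRep (IsLocalRing.ResidueField 𝒪))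
    (𝒟 : ∀ ⦃A : Type⦄ [CommRing A] [IsLocalRing A] [Algebra 𝒪 A], GaloisRepAdic A → Prop)
    (habs : ρbar.IsAbsolutelyIrreducible)
    (h𝒟 : GaloisRep.IsDeformationCondition 𝒪 𝒟)
    (hbar : 𝒟 (GaloisRepAdic.ofResidualGaloisRep ρbar))
    (hfin : GaloisRep.TangentFinite 𝒪 ρbar 𝒟) :
    Nonempty (GaloisRep.DeformationRingData 𝒪 ρbar 𝒟) := by
  obtain ⟨rbar, hb, g₀, g₁, i₀, j₀, hρ, h00, h10, hne, -⟩ := exists_normalForm ρbar habs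
  obtain ⟨y, hy⟩ := IsLocalRing.residue_surjective (rbar g₁ i₀ j₀)
  have hnb : IsNormal g₀ g₁ i₀ j₀ (algebraMap 𝒪 (IsLocalRing.ResidueField 𝒪) y) rbar :=
    ⟨h00, h10, hy.symm⟩
  obtain ⟨I, ι, hι, a, hGood, hpow, hmin, hstep, hI1, ha, hgen⟩ :=
    exists_chain 𝒪 (US 𝒪 g₀ g₁ i₀ j₀ y) (mUS hnb) (mUS_hres hnb)
      (Good 𝒟 (univRep 𝒪 g₀ g₁ i₀ j₀ y) (mUS hnb))
      (fun I J hI hJ => Good.inf h𝒟 (mUS_hres hnb) (mUS_hm𝒪 hnb) hI hJ)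
      (fun I J hI hIJ hJ => Good.mono h𝒟 (mUS_hres hnb) (mUS_hm𝒪 hnb) hI hIJ hJ)
      (fun I hI => ⟨hI.prim.2.2, hI.prim.1, hI.prim.2.1⟩)
      (good_mUS hnb h𝒟 ρbar hb hρ hbar)
      (finite_tangent_set hnb h𝒟 ρbar hb hρ hne hfin)
  obtain ⟨R, _, _, θ, hNoeth, hComp, hcomap, hdense⟩ :=
    exists_complete_limit 𝒪 (US 𝒪 g₀ g₁ i₀ j₀ y) (mUS hnb) (mUS_hres hnb) I hpow hstep hI1 ι a ha
      hgen
  exact final_of_limit ρbar habs h𝒟 hnb hb hρ hne I hGood hmin hI1 R θ hComp hcomap hdense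

end Fermat.Agent.S53
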