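import Fermat.Statements.S57
import Fermat.Agent.S57.Lib

set_option autoImplicit false
open Algebra Algebra.PatchingLevel

namespace Fermat.Agent.S57

theorem result
    {𝒪 : Type} [CommRing 𝒪] [IsDomain 𝒪] [IsDiscreteValuationRing 𝒪]
    {r : ℕ} {R : Type} [CommRing R] [Algebra 𝒪 R]
    {M : Type} [AddCommGroup M] [Module R M] [Nontrivial M]
    (L : Algebra.PatchingLevel 𝒪 r R M ⊥) :
    Module.Free R M ∧ Module.annihilator R M = ⊥ ∧
      RingHom.ker L.ψ = Ideal.span (Set.range fun i : Fin r => L.φ (MvPowerSeries.X i)) := by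
  obtain ⟨ϖ, hϖ⟩ := IsDiscreteValuationRing.exists_irreducible 𝒪
  obtain ⟨hreg, hmaxl⟩ := Fermat.Agent.S57Lib.paramSeq_spec ϖ hϖ r
  have hmax : Ideal.ofList (Fermat.Agent.S57Lib.paramSeq ϖ r) =
      IsLocalRing.maximalIdeal (MvPowerSeries (Fin r) 𝒪) := IsLocalRing.eq_maximalIdeal hmaxl
  have hR : Nontrivial R := Module.nontrivial R M
  -- the additive equivalence given by the `φ`-basis `b`
  let e₀ : (Fin L.d → MvPowerSeries (Fin r) 𝒪) →+ L.N :=
    { toFun := fun c => ∑ i, L.φ (c i) • L.b i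
      map_zero' := by simp
      map_add' := fun c c' => by simp [add_smul, Finset.sum_add_distrib] }
  have he₀ : Function.Bijective e₀ := by
    constructor
    · rw [injective_iff_map_eq_zero]
      intro c hc
      have := (L.b_rel c).mp hc
      funext i
      simpa using this i
    · intro x
      obtain ⟨c, hc⟩ := L.b_span x
      exact ⟨c, hc.symm⟩
  let e : (Fin L.d → MvPowerSeries (Fin r) 𝒪) ≃+ L.N := AddEquiv.ofBijective e₀ he₀
  have he : ∀ (s : MvPowerSeries (Fin r) 𝒪) (c : Fin L.d → MvPowerSeries (Fin r) 𝒪),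
      e (s • c) = (L.φ : MvPowerSeries (Fin r) 𝒪 →+* MvPowerSeries (Fin r) 𝒪) s • e c := by
    intro s c
    show ∑ i, L.φ ((s • c) i) • L.b i = L.φ s • ∑ i, L.φ (c i) • L.b i
    rw [Finset.smul_sum]
    refine Finset.sum_congr rfl fun i _ => ?_
    rw [Pi.smul_apply, smul_eq_mul, map_mul, mul_smul]
  have hloc : ∀ a ∈ Fermat.Agent.S57Lib.paramSeq ϖ r,
      (L.φ : MvPowerSeries (Fin r) 𝒪 →+* MvPowerSeries (Fin r) 𝒪) a ∈
        IsLocalRing.maximalIdeal (MvPowerSeries (Fin r) 𝒪) := by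
    intro a ha
    rw [Fermat.Agent.S57Lib.paramSeq, List.mem_append, List.mem_ofFn, List.mem_singleton] at ha
    rcases ha with ⟨i, rfl⟩ | rfl
    · rw [IsLocalRing.mem_maximalIdeal, mem_nonunits_iff]
      intro hu
      have := hu.map L.ψ
      simp only [RingHom.coe_coe] at this
      rw [L.ψ_φ_X i] at this
      exact not_isUnit_zero this
    · have h1 : (L.φ : MvPowerSeries (Fin r) 𝒪 →+* MvPowerSeries (Fin r) 𝒪) (MvPowerSeries.C ϖ) =
          MvPowerSeries.C ϖ := L.φ.commutes ϖ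
      rw [h1, ← hmax]
      refine Ideal.subset_span ?_
      simp [Fermat.Agent.S57Lib.paramSeq]
  obtain ⟨hfree, hfin⟩ := Fermat.Agent.S57Lib.free_of_semilinear_free
    (L.φ : MvPowerSeries (Fin r) 𝒪 →+* MvPowerSeries (Fin r) 𝒪) L.N L.d e he
    (Fermat.Agent.S57Lib.paramSeq ϖ r) hreg.toIsWeaklyRegular hmax hloc
    (Fermat.Agent.S57Lib.paramSeq ϖ r) hreg hmax le_rfl
  have hI : Ideal.span (Set.range fun i : Fin r => L.φ (MvPowerSeries.X i)) ≤
      RingHom.ker (L.ψ : MvPowerSeries (Fin r) 𝒪 →+* R) := by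
    rw [Ideal.span_le]
    rintro _ ⟨i, rfl⟩
    exact L.ψ_φ_X i
  exact Fermat.Agent.S57Lib.descent (L.ψ : MvPowerSeries (Fin r) 𝒪 →+* R) L.ψ_surjective L.π
    L.π_smul L.π_surjective _ hI L.ker_π

end Fermat.Agent.S57
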