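-- Statement S58 (row 52).  Proof: helper files under `Fermat/Agent/S58/`.
import Fermat.Statements.S58
import Fermat.Agent.S58.Newform
import Fermat.Agent.S58.Sqf
import Fermat.Agent.S58.Step36
import Fermat.Agent.S58.Step35
import Fermat.Agent.S58.CoeffEq
import Fermat.Agent.S58.Raise

set_option autoImplicit false
set_option autoImplicit false
open WeierstrassCurve

namespace Fermat.Agent.S58

open Fermat.Agent.S58Lib in
theorem result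
    (W : WeierstrassCurve ℤ) (hss : W.IsSemistableModel) (N : ℕ)
    (p : ℕ) [Fact p.Prime] (hp2 : p ≠ 2) (hirr : W.ModRepIsIrreducible p)
    (hp2N : ¬ p ^ 2 ∣ N)
    (hN : W.IsModularModelOfLevel N) (hbad : ∀ ℓ : ℕ, ℓ.Prime → (ℓ : ℤ) ∣ W.Δ → ℓ ∣ N)
    (hN3 : ∀ q : ℕ, q.Prime → ¬ q ^ 3 ∣ N) :
    W.IsModularModelOfLevel W.conductorLevel := by
  have hN0 : N ≠ 0 := by
    rintro rfl
    exact hN3 2 Nat.prime_two (dvd_zero _)
  have hΔ : W.Δ ≠ 0 := by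
    intro h0
    obtain ⟨ℓ, hℓN, hℓ⟩ := Nat.exists_infinite_primes (N + 1)
    have := Nat.le_of_dvd (Nat.pos_of_ne_zero hN0) (hbad ℓ hℓ (by rw [h0]; exact dvd_zero _))
    omega
  obtain ⟨f, hf, hfa⟩ := hN
  obtain ⟨M, g, hMN, hg, hgf⟩ := exists_newform hN0 hf
  have hM0 : M ≠ 0 := by
    rintro rfl
    exact hN0 (Nat.eq_zero_of_zero_dvd hMN)
  haveI : NeZero M := ⟨hM0⟩
  have hga : ∀ ℓ : ℕ, ℓ.Prime → ¬ ℓ ∣ N → ModularFormClass.qCoeff g ℓ = (W.apOfModel ℓ : ℂ) := by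
    intro ℓ hℓ hℓN
    rw [hgf ℓ hℓ hℓN]
    exact hfa ℓ hℓ (fun h => hℓN (hbad ℓ hℓ h)) hℓN
  have key : ∀ q : ℕ, q.Prime → q ∣ M → ¬ q ^ 2 ∣ M ∧ (q : ℤ) ∣ W.Δ := by
    intro q hq hqM
    have h2 : ¬ q ^ 2 ∣ M := by
      intro h2
      have h3 : ¬ q ^ 3 ∣ M := fun h => hN3 q hq (h.trans hMN)
      apply factorization_ne_two W hΔ hss hN0 hMN hg hbad hga hq
      have e1 := (hq.pow_dvd_iff_le_factorization hM0).1 h2
      have e2 : ¬ 3 ≤ M.factorization q := fun h => h3 ((hq.pow_dvd_iff_le_factorization hM0).2 h)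
      omega
    exact ⟨h2, not_good_of_dvd W hΔ hN0 hMN hg hbad hga hq hqM h2⟩
  have hMR : M ∣ W.conductorLevel :=
    dvd_of_factorization_le_one hM0 fun q hq hqM =>
      ⟨(key q hq hqM).1, (W.prime_dvd_conductorLevel_iff hΔ hq).2 (key q hq hqM).2⟩
  obtain ⟨h, hh, hhg⟩ := exists_raise hMR hg.1
  refine ⟨h, hh, fun ℓ hℓ hgood hℓR => ?_⟩
  rw [hhg ℓ hℓ hℓR]
  exact qCoeff_eq_ap W hΔ hN0 hMN hg.1 hbad hga hℓ hgood (fun hℓM => hgood (key ℓ hℓ hℓM).2)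

end Fermat.Agent.S58
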